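import Mathlib
import Fermat.Agent.S17.GDiv.Defs

/-!
# S17 / G-DIV, pieces CORE (rigidity for functions) and RIG (rigidity for classes)

* `stmtCORE : StmtDER N L → StmtDEREX L → StmtDPRES N L → StmtCORE N L`
* `stmtRIG  : StmtCORE N L → StmtZRAT N L → StmtCUSPRAT N L → StmtRIG N L`

## CORE

Proof (plan `coord/S17-GDIV.md` v2 of helper797).  Normalise the leading `q`-coefficient of `f` to
`1`: `f₁ = c • f`.  If some coefficient `x` of `f₁` is not in `K₁`, DEREX gives a derivation `∂` of
`L` killing `K₁` with `∂ x ≠ 0`; `h := D f₁` (coefficientwise `∂`, DPRES) is nonzero and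
`g := h / f₁` has, by DER, at most simple poles, all of them at non-`K₁`-rational zeros or poles of
`f`, i.e. in the support of `E`.  So `g ∈ L(E) = L` (as `ℓ(E) = 1`): `D f₁ = a • f₁` for a constant
`a`; comparing the leading coefficients, `a = ∂ 1 = 0`, so `D f₁ = 0`, a contradiction.

## RIG

Let `E = minRep y`, `m = minDeg y`, so `y = [E - m ∞]`, `E ≥ 0`, `ℓ(E) = 1`.  From `n • y = [B]`
we get `h ≠ 0` with `B = n (E - m ∞) + div h`.  A place `P` which is not `K₁`-rational is not the
cusp (CUSPRAT) and not in the support of `B`, so `ord_P h = - n E(P)`; in particular all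
non-rational zeros and poles of `h` lie in the support of `E`.  By CORE a constant multiple of `h`
has coefficients in `K₁`, hence by ZRAT all zeros and poles of `h` are `K₁`-rational.  So a
non-rational `P` has `E(P) = 0`.
-/

set_option autoImplicit false

noncomputable section

open AlgebraicCurve ModularCurve

namespace Fermat.Agent.S17.H917

open Fermat.Agent.Lib.RR Fermat.Agent.S17.H680 Fermat.Agent.S17.GDiv

variable {N : ℕ} [NeZero N] {L : Type} [Field L] [Algebra ℚ L]

omit [NeZero N] in
/-- Coefficients of a constant multiple. -/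
theorem coeff_algebraMap_mul_FL (a : L) (f : FL N L) (m : ℤ) :
    ((algebraMap L (FL N L) a * f : FL N L) : LaurentSeries L).coeff m
      = a * (f : LaurentSeries L).coeff m := by
  show (algebraMap L (LaurentSeries L) a * (f : LaurentSeries L)).coeff m = _
  rw [algebraMap_laurentSeries_eq_single, HahnSeries.coeff_single_zero_mul]

omit [NeZero N] in
/-- Coefficients of a scalar multiple. -/
theorem coeff_smul_FL (c : L) (f : FL N L) (m : ℤ) :
    ((c • f : FL N L) : LaurentSeries L).coeff m = c * (f : LaurentSeries L).coeff m := by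
  rw [Algebra.smul_def, coeff_algebraMap_mul_FL]

omit [NeZero N] in
/-- A nonzero element of `F_L` has a nonzero coefficient; normalising it gives a coefficient
equal to `1`. -/
theorem exists_coeff_ne_zero_FL {f : FL N L} (hf : f ≠ 0) :
    ∃ m : ℤ, (f : LaurentSeries L).coeff m ≠ 0 := by
  have hf' : (f : LaurentSeries L) ≠ 0 := fun h => hf (Subtype.ext h)
  exact ⟨_, fun h => hf' (HahnSeries.coeff_order_eq_zero.mp h)⟩

omit [NeZero N] in
/-- If `E ≥ 0` and `ℓ(E) = 1`, then `L(E)` consists of the constants. -/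
theorem exists_const_of_mem_L_of_ell_eq_one {E : Divisor L (FL N L)} (hE : 0 ≤ E)
    (hell : ell E = 1) {g : FL N L} (hg : g ∈ riemannRochSpace E) :
    ∃ a : L, g = algebraMap L (FL N L) a := by
  have h1 : (1 : FL N L) ∈ riemannRochSpace E := by
    rw [mem_riemannRochSpace_iff]
    intro v
    right
    rw [Place.ord_one]
    have := Finsupp.le_def.mp hE v
    simp only [Finsupp.coe_zero, Pi.zero_apply] at this
    omega
  have hne : (⟨1, h1⟩ : riemannRochSpace E) ≠ 0 := by
    intro h
    have := congrArg Subtype.val h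
    simp at this
  obtain ⟨a, ha⟩ := (finrank_eq_one_iff_of_nonzero' (⟨1, h1⟩ : riemannRochSpace E) hne).mp hell
    ⟨g, hg⟩
  refine ⟨a, ?_⟩
  have := congrArg Subtype.val ha
  simp only [Submodule.coe_smul] at this
  rw [← this, Algebra.smul_def, mul_one]

omit [NeZero N] in
/-- **CORE** (rigidity for functions). -/
theorem stmtCORE (hDER : StmtDER N L) (hDEREX : StmtDEREX L) (hDPRES : StmtDPRES N L) :
    StmtCORE N L := by
  intro K₁ hK₁ f hf E hE hell hsupp
  -- normalise
  obtain ⟨n₀, hn₀⟩ := exists_coeff_ne_zero_FL hf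
  set c : L := ((f : LaurentSeries L).coeff n₀)⁻¹ with hc
  have hc0 : c ≠ 0 := inv_ne_zero hn₀
  refine ⟨c, hc0, ?_⟩
  have hf₁ : c • f ≠ 0 := by
    rw [Algebra.smul_def]
    exact mul_ne_zero ((map_ne_zero _).mpr hc0) hf
  have hlead : ((c • f : FL N L) : LaurentSeries L).coeff n₀ = 1 := by
    rw [coeff_smul_FL, hc, inv_mul_cancel₀ hn₀]
  -- coefficients
  intro m
  by_contra hx
  obtain ⟨d, hdK, hdx⟩ := hDEREX K₁ hK₁ _ hx
  obtain ⟨h, hh⟩ := hDPRES d (c • f)
  have hh0 : h ≠ 0 := by
    intro h0
    apply hdx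
    rw [← hh m, h0]
    simp
  set g : FL N L := h / (c • f) with hg
  have hgf : g * (c • f) = h := div_mul_cancel₀ h hf₁
  have hg0 : g ≠ 0 := div_ne_zero hh0 hf₁
  have hder := hDER d (c • f) g hf₁ (fun m => by rw [hgf]; exact hh m)
  -- `g ∈ L(E)`
  have hgE : g ∈ riemannRochSpace E := by
    rw [mem_riemannRochSpace_iff]
    intro P
    right
    rcases hder P with h0 | ⟨h1, h2, h3⟩
    · exact absurd h0 hg0
    have hEP : 0 ≤ E P := by
      have := Finsupp.le_def.mp hE P
      simpa using this
    by_cases hord : P.ord (c • f) = 0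
    · have := h2 hord
      omega
    by_cases hrat : IsRationalOver K₁ P
    · have := h3 K₁ hdK hrat
      omega
    · have hordf : P.ord f ≠ 0 := by
        intro h0
        apply hord
        rw [Algebra.smul_def, P.ord_mul ((map_ne_zero _).mpr hc0) hf, ord_algebraMap, h0, zero_add]
      have := hsupp P hrat hordf
      omega
  obtain ⟨a, ha⟩ := exists_const_of_mem_L_of_ell_eq_one hE hell hgE
  -- compare the coefficients at `n₀`
  have key : ∀ m : ℤ, d (((c • f : FL N L) : LaurentSeries L).coeff m)
      = a * ((c • f : FL N L) : LaurentSeries L).coeff m := by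
    intro m
    rw [← hh m, ← hgf, ha, coeff_algebraMap_mul_FL]
  have ha0 : a = 0 := by
    have := key n₀
    rw [hlead, mul_one] at this
    rw [← this]
    exact d.map_one_eq_zero
  apply hdx
  rw [key m, ha0, zero_mul]

section Rig

variable {N : ℕ} [NeZero N] {L : Type} [Field L] [Algebra ℚ L] [FF1 L (FL N L)]

/-- **RIG** (rigidity for classes). -/
theorem stmtRIG (hCORE : StmtCORE N L) (hZRAT : StmtZRAT N L) (hCUSP : StmtCUSPRAT N L) :
    StmtRIG N L := by
  intro K₁ hK₁ y n hn B hB hny
  have hE0 : 0 ≤ minRep (cuspL N L) y := minRep_nonneg _ y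
  have hEell : ell (minRep (cuspL N L) y) = 1 := ell_minRep _ y
  -- the function `h`
  have h1 : Pic0.mk (n • minDiv (cuspL N L) y) = Pic0.mk B := by
    rw [← hny]
    conv_rhs => rw [← mk_minDiv (cuspL N L) y]
    rfl
  obtain ⟨h, hh, e⟩ := mk_eq_mk_iff'.mp h1
  -- orders of `h` at the non-rational places
  have hord : ∀ P : Place L (FL N L), ¬ IsRationalOver K₁ P →
      P.ord h = - (n : ℤ) * minRep (cuspL N L) y P := by
    intro P hP
    have hPc : P ≠ cuspL N L := fun hc => hP (hc ▸ hCUSP K₁)
    have hPB : (B : Divisor L (FL N L)) P = 0 := by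
      by_contra hne
      exact hP (hB P (Finsupp.mem_support_iff.mpr hne))
    have e' := DFunLike.congr_fun e P
    rw [hPB, Finsupp.add_apply, divOf_apply, AddSubgroup.coe_nsmul, coe_minDiv,
      Finsupp.smul_apply, Finsupp.sub_apply, Finsupp.smul_apply, prim_apply_of_ne hPc] at e'
    simp only [smul_zero, sub_zero, nsmul_eq_mul] at e'
    linarith
  -- CORE
  obtain ⟨c, hc0, hcoef⟩ := hCORE K₁ hK₁ h hh (minRep (cuspL N L) y) hE0 hEell (by
    intro P hP hne
    have hEP : 0 ≤ minRep (cuspL N L) y P := by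
      have := Finsupp.le_def.mp hE0 P
      simpa using this
    rcases hEP.lt_or_eq with hlt | heq
    · exact hlt
    · exfalso
      apply hne
      rw [hord P hP, ← heq, mul_zero])
  -- ZRAT
  have hzr := hZRAT K₁ hK₁ (c • h) hcoef
  intro P hPE
  by_contra hP
  apply hP
  apply hzr P
  rw [Algebra.smul_def, P.ord_mul ((map_ne_zero _).mpr hc0) hh, ord_algebraMap, zero_add,
    hord P hP]
  have hne : minRep (cuspL N L) y P ≠ 0 := Finsupp.mem_support_iff.mp hPE
  have hn' : (n : ℤ) ≠ 0 := by exact_mod_cast hn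
  exact mul_ne_zero (neg_ne_zero.mpr hn') hne

end Rig

end Fermat.Agent.S17.H917
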