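import Mathlib.LinearAlgebra.Matrix.Adjugate
import Mathlib.LinearAlgebra.Matrix.NonsingularInverse
import Mathlib.LinearAlgebra.Matrix.ToLinearEquiv
import Mathlib.LinearAlgebra.Matrix.Rank
import Mathlib.LinearAlgebra.Dual.Defs
import Mathlib.LinearAlgebra.FiniteDimensional.Lemmas

/-!
# Cramer's rule as an identity for vectors in a space of bounded rank

Wall leaf CRAMER of row S17, tower H (global route of helper710, `coord/S17-H-L1-helper710.md`
sec. 3).  Mathlib-only.

Let `v i` (`i : ι`, `ι` finite with `k` elements) be vectors of a module `V`, `φ j` (`j : ι`)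
linear functionals ("the columns `T`") and `u` a further vector.  Put `A i j := φ j (v i)`.
The *Cramer defect* is

  `cramerDefect v φ u := det A • u - ∑ i, det (A.updateRow i (fun j ↦ φ j u)) • v i`.

* `cramerDefect_apply`: for every functional `ℓ` the value `ℓ (cramerDefect v φ u)` is
  `det A * ℓ u - ∑ j, φ j u * det (A.updateCol j (fun i ↦ ℓ (v i)))`
  (both are expansions of the bordered `(k+1)`-minor);
* `cramerDefect_eq_zero_of_mem_span`: it vanishes for `u` in the span of the `v i`
  (any commutative ring);
* `cramerDefect_eq_zero_of_not_linearIndependent`: over a field it vanishes identically when the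
  `v i` are linearly dependent;
* `cramerDefect_eq_zero_of_finrank_le`: over a field, if the `v i` and `u` lie in a subspace of
  dimension `≤ k`, the defect vanishes: **Cramer's rule as an identity**
  `det A • u = ∑ i, det (A.updateRow i (φ · u)) • v i`;
* `cramer_identity_matrix`, `cramer_identity_matrix_of_rank_le`: the matrix form: `B` a matrix of
  rank `≤ k`, `w` in its row space, `S : ι → rows`, `T : ι → cols`:
  `det (B.submatrix S T) • w = ∑ i, det ((B.submatrix S T).updateRow i (w ∘ T)) • B (S i)`;
* `cramer_identity_matrix_apply`: the same after applying a linear functional (evaluation at a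
  point).
-/

set_option autoImplicit false

noncomputable section

namespace Fermat.Agent.S17.H917

open Matrix

section CommRing

variable {R : Type*} [CommRing R] {V : Type*} [AddCommGroup V] [Module R V]
variable {ι : Type*} [Fintype ι] [DecidableEq ι]

/-- The matrix `A i j = φ j (v i)` of values of the functionals `φ j` on the vectors `v i`. -/
def valMatrix (v : ι → V) (φ : ι → Module.Dual R V) : Matrix ι ι R :=
  Matrix.of fun i j => φ j (v i)

omit [Fintype ι] [DecidableEq ι] in
@[simp]
theorem valMatrix_apply (v : ι → V) (φ : ι → Module.Dual R V) (i j : ι) :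
    valMatrix v φ i j = φ j (v i) := rfl

/-- The Cramer defect
`det A • u - ∑ i, det (A.updateRow i (φ · u)) • v i`, `A i j = φ j (v i)`. -/
def cramerDefect (v : ι → V) (φ : ι → Module.Dual R V) (u : V) : V :=
  (valMatrix v φ).det • u -
    ∑ i, ((valMatrix v φ).updateRow i (fun j => φ j u)).det • v i

/-- The two expansions of the bordered minor: row expansion = column expansion. -/
theorem sum_det_updateRow_mul_eq (A : Matrix ι ι R) (a b : ι → R) :
    ∑ i, (A.updateRow i a).det * b i = ∑ j, a j * (A.updateCol j b).det := by
  have h1 : ∀ i, (A.updateRow i a).det = (Aᵀ.adjugate *ᵥ a) i := by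
    intro i
    rw [← cramer_transpose_apply, cramer_eq_adjugate_mulVec]
  have h2 : ∀ j, (A.updateCol j b).det = (A.adjugate *ᵥ b) j := by
    intro j
    rw [← cramer_apply, cramer_eq_adjugate_mulVec]
  simp_rw [h1, h2]
  have e1 : ∑ i, (Aᵀ.adjugate *ᵥ a) i * b i = (Aᵀ.adjugate *ᵥ a) ⬝ᵥ b := rfl
  have e2 : ∑ j, a j * (A.adjugate *ᵥ b) j = a ⬝ᵥ (A.adjugate *ᵥ b) := rfl
  rw [e1, e2, ← adjugate_transpose, mulVec_transpose, ← dotProduct_mulVec]

/-- Value of a functional on the Cramer defect: the column expansion of the bordered minor. -/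
theorem cramerDefect_apply (v : ι → V) (φ : ι → Module.Dual R V) (u : V)
    (ℓ : Module.Dual R V) :
    ℓ (cramerDefect v φ u) = (valMatrix v φ).det * ℓ u -
      ∑ j, φ j u * ((valMatrix v φ).updateCol j (fun i => ℓ (v i))).det := by
  unfold cramerDefect
  rw [map_sub, map_smul, map_sum, smul_eq_mul]
  simp_rw [map_smul, smul_eq_mul]
  rw [sum_det_updateRow_mul_eq]

omit [Fintype ι] in
/-- Updating column `j` of the value matrix = replacing the functional `φ j` by `ℓ`. -/
theorem valMatrix_updateCol (v : ι → V) (φ : ι → Module.Dual R V) (ℓ : Module.Dual R V) (j : ι) :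
    (valMatrix v φ).updateCol j (fun i => ℓ (v i)) = valMatrix v (Function.update φ j ℓ) := by
  ext i l
  by_cases h : l = j
  · subst h; simp [valMatrix]
  · simp [valMatrix, Matrix.updateCol_ne h, Function.update_of_ne h]

/-- The Cramer defect is additive in `u`. -/
theorem cramerDefect_add (v : ι → V) (φ : ι → Module.Dual R V) (u u' : V) :
    cramerDefect v φ (u + u') = cramerDefect v φ u + cramerDefect v φ u' := by
  unfold cramerDefect
  have h : ∀ i, ((valMatrix v φ).updateRow i (fun j => φ j (u + u'))).det =
      ((valMatrix v φ).updateRow i (fun j => φ j u)).det +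
        ((valMatrix v φ).updateRow i (fun j => φ j u')).det := by
    intro i
    rw [← det_updateRow_add]
    congr 2
    ext j
    simp
  simp_rw [h, add_smul, Finset.sum_add_distrib, smul_add]
  abel

/-- The Cramer defect is homogeneous in `u`. -/
theorem cramerDefect_smul (v : ι → V) (φ : ι → Module.Dual R V) (a : R) (u : V) :
    cramerDefect v φ (a • u) = a • cramerDefect v φ u := by
  unfold cramerDefect
  have h : ∀ i, ((valMatrix v φ).updateRow i (fun j => φ j (a • u))).det =
      a * ((valMatrix v φ).updateRow i (fun j => φ j u)).det := by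
    intro i
    rw [← det_updateRow_smul]
    congr 2
    ext j
    simp
  simp_rw [h, smul_sub, Finset.smul_sum, smul_smul]
  rw [mul_comm]

/-- The Cramer defect, as a linear map in `u`. -/
def cramerDefectLin (v : ι → V) (φ : ι → Module.Dual R V) : V →ₗ[R] V where
  toFun := cramerDefect v φ
  map_add' := cramerDefect_add v φ
  map_smul' := cramerDefect_smul v φ

@[simp]
theorem cramerDefectLin_apply (v : ι → V) (φ : ι → Module.Dual R V) (u : V) :
    cramerDefectLin v φ u = cramerDefect v φ u := rfl

/-- The Cramer defect vanishes at each `v j`. -/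
theorem cramerDefect_self (v : ι → V) (φ : ι → Module.Dual R V) (j : ι) :
    cramerDefect v φ (v j) = 0 := by
  unfold cramerDefect
  rw [sub_eq_zero, Finset.sum_eq_single j]
  · congr 2
    symm
    ext a b
    by_cases h : a = j
    · subst h; simp
    · simp [Matrix.updateRow_ne h]
  · intro i _ hij
    have : ((valMatrix v φ).updateRow i (fun l => φ l (v j))).det = 0 := by
      refine det_zero_of_row_eq hij ?_
      ext l
      simp [Matrix.updateRow_ne (Ne.symm hij)]
    rw [this, zero_smul]
  · intro h
    exact absurd (Finset.mem_univ j) h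

/-- The Cramer defect vanishes on the span of the `v i`. -/
theorem cramerDefect_eq_zero_of_mem_span (v : ι → V) (φ : ι → Module.Dual R V) {u : V}
    (hu : u ∈ Submodule.span R (Set.range v)) : cramerDefect v φ u = 0 := by
  have hle : Submodule.span R (Set.range v) ≤ LinearMap.ker (cramerDefectLin v φ) := by
    rw [Submodule.span_le]
    rintro _ ⟨j, rfl⟩
    simp [cramerDefect_self]
  simpa using hle hu

end CommRing

section Field

variable {K : Type*} [Field K] {V : Type*} [AddCommGroup V] [Module K V]
variable {ι : Type*} [Fintype ι] [DecidableEq ι]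

/-- If the `v i` are linearly dependent, every value matrix has determinant `0`. -/
theorem det_valMatrix_eq_zero_of_not_linearIndependent {v : ι → V}
    (hv : ¬ LinearIndependent K v) (φ : ι → Module.Dual K V) : (valMatrix v φ).det = 0 := by
  obtain ⟨g, hg, i₀, hi₀⟩ := Fintype.not_linearIndependent_iff.mp hv
  rw [← exists_vecMul_eq_zero_iff]
  refine ⟨g, fun h => hi₀ (congrFun h i₀), ?_⟩
  ext j
  simp only [vecMul, dotProduct, valMatrix_apply, Pi.zero_apply]
  have := congrArg (φ j) hg
  simpa [map_sum, map_smul, smul_eq_mul] using this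

/-- Over a field, the Cramer defect vanishes identically when the `v i` are linearly dependent. -/
theorem cramerDefect_eq_zero_of_not_linearIndependent {v : ι → V}
    (hv : ¬ LinearIndependent K v) (φ : ι → Module.Dual K V) (u : V) :
    cramerDefect v φ u = 0 := by
  by_contra hne
  obtain ⟨ℓ, hℓ⟩ : ∃ ℓ : Module.Dual K V, ℓ (cramerDefect v φ u) ≠ 0 := by
    by_contra hcon
    refine hne ((Module.forall_dual_apply_eq_zero_iff K _).mp fun ℓ => ?_)
    by_contra h
    exact hcon ⟨ℓ, h⟩
  apply hℓ
  rw [cramerDefect_apply, det_valMatrix_eq_zero_of_not_linearIndependent hv, zero_mul, zero_sub,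
    neg_eq_zero]
  refine Finset.sum_eq_zero fun j _ => ?_
  rw [valMatrix_updateCol, det_valMatrix_eq_zero_of_not_linearIndependent hv, mul_zero]

/-- **Cramer's rule as an identity.**  Over a field, if the `k` vectors `v i` and the vector `u`
lie in a subspace `W` of dimension `≤ k`, then
`det A • u = ∑ i, det (A.updateRow i (φ · u)) • v i` for the value matrix `A i j = φ j (v i)` of
ANY `k` functionals `φ j`. -/
theorem cramerDefect_eq_zero_of_finrank_le (W : Submodule K V) [FiniteDimensional K W]
    (hW : Module.finrank K W ≤ Fintype.card ι) {v : ι → V} (hv : ∀ i, v i ∈ W) {u : V}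
    (hu : u ∈ W) (φ : ι → Module.Dual K V) : cramerDefect v φ u = 0 := by
  by_cases hli : LinearIndependent K v
  · -- the `v i` span `W`
    have hle : Submodule.span K (Set.range v) ≤ W := by
      rw [Submodule.span_le]
      rintro _ ⟨i, rfl⟩
      exact hv i
    have hfr : Module.finrank K (Submodule.span K (Set.range v)) = Fintype.card ι :=
      finrank_span_eq_card hli
    have heq : Submodule.span K (Set.range v) = W :=
      Submodule.eq_of_le_of_finrank_le hle (by rw [hfr]; exact hW)
    exact cramerDefect_eq_zero_of_mem_span v φ (heq ▸ hu)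
  · exact cramerDefect_eq_zero_of_not_linearIndependent hli φ u

/-- `cramerDefect_eq_zero_of_finrank_le`, written out. -/
theorem cramer_identity_of_finrank_le (W : Submodule K V) [FiniteDimensional K W]
    (hW : Module.finrank K W ≤ Fintype.card ι) {v : ι → V} (hv : ∀ i, v i ∈ W) {u : V}
    (hu : u ∈ W) (φ : ι → Module.Dual K V) :
    (valMatrix v φ).det • u =
      ∑ i, ((valMatrix v φ).updateRow i (fun j => φ j u)).det • v i :=
  sub_eq_zero.mp (cramerDefect_eq_zero_of_finrank_le W hW hv hu φ)

end Field

section MatrixForm

variable {K : Type*} [Field K] {r c ι : Type*} [Fintype ι] [DecidableEq ι]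

/-- **Cramer's rule as an identity, matrix form** (rows of `B` are the vectors `B s : c → K`).
If the row space of `B` has dimension `≤ k = card ι` and `w` lies in it, then for all choices of
`k` rows `S` and `k` columns `T`
`det (B.submatrix S T) • w = ∑ i, det ((B.submatrix S T).updateRow i (w ∘ T)) • B (S i)`. -/
theorem cramer_identity_matrix [Finite c] (B : Matrix r c K)
    (hB : Module.finrank K (Submodule.span K (Set.range B)) ≤ Fintype.card ι)
    {w : c → K} (hw : w ∈ Submodule.span K (Set.range B)) (S : ι → r) (T : ι → c) :
    (B.submatrix S T).det • w =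
      ∑ i, ((B.submatrix S T).updateRow i (w ∘ T)).det • B (S i) := by
  classical
  have h := cramer_identity_of_finrank_le (Submodule.span K (Set.range B)) hB
    (v := fun i => B (S i)) (fun i => Submodule.subset_span ⟨S i, rfl⟩) hw
    (fun j => LinearMap.proj (T j))
  have hA : valMatrix (fun i => B (S i)) (fun j => (LinearMap.proj (T j) : (c → K) →ₗ[K] K)) =
      B.submatrix S T := by
    ext i j
    simp [valMatrix]
  rw [hA] at h
  exact h

/-- `cramer_identity_matrix` with the hypothesis `B.rank ≤ k`. -/
theorem cramer_identity_matrix_of_rank_le [Fintype r] [Fintype c] (B : Matrix r c K)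
    (hB : B.rank ≤ Fintype.card ι)
    {w : c → K} (hw : w ∈ Submodule.span K (Set.range B)) (S : ι → r) (T : ι → c) :
    (B.submatrix S T).det • w =
      ∑ i, ((B.submatrix S T).updateRow i (w ∘ T)).det • B (S i) := by
  refine cramer_identity_matrix B ?_ hw S T
  have h := Matrix.rank_eq_finrank_span_row B
  have h2 : Set.range B.row = Set.range B := rfl
  rw [h2] at h
  rw [← h]
  exact hB

/-- Cramer's identity after applying a linear functional `ℓ` ("evaluation at a point `P`"):
`det (B_ST) * ℓ w = ∑ i, det (B_ST [row i ← w_T]) * ℓ (B (S i))`. -/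
theorem cramer_identity_matrix_apply [Finite c] (B : Matrix r c K)
    (hB : Module.finrank K (Submodule.span K (Set.range B)) ≤ Fintype.card ι)
    {w : c → K} (hw : w ∈ Submodule.span K (Set.range B)) (S : ι → r) (T : ι → c)
    (ℓ : (c → K) →ₗ[K] K) :
    (B.submatrix S T).det * ℓ w =
      ∑ i, ((B.submatrix S T).updateRow i (w ∘ T)).det * ℓ (B (S i)) := by
  have h := congrArg ℓ (cramer_identity_matrix B hB hw S T)
  simpa [map_sum, map_smul, smul_eq_mul] using h

end MatrixForm

end Fermat.Agent.S17.H917
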