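import Fermat.Agent.S17.H680.DescentRR
import Fermat.Agent.Lib.RR.H439.Pencil

/-!
# S17 / tower H, geometric layer: rational avoidance and the common residual (G-MOV2)

Setting of BASE-2 (helper680, `H680/DescentRR.lean`): `F = ℚ̄ · F₀ ⊆ ℚ̄((q))` with the coefficientwise
action of `G_ℚ`; `IsFixed f` (Galois-fixed = rational function), `IsInvariant D` (Galois-invariant
divisor).

* `isInvariant_add/sub/neg/zero`, `isInvariant_divOf` : calculus of invariant divisors;
* `exists_fixed_mem_L_forall_ord_eq` (**RAT-AVOID**): if `D` is invariant of degree `≥ 2g` and `S` is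
  a finite set of places, some FIXED `f ∈ L(D)`, `f ≠ 0`, has `ord_v f = - D v` for all `v ∈ S`
  (the member `div f + D` of `|D|` is rational and avoids `S`);
* `exists_fixed_of_divOf_add_eq_zero`: an invariant principal divisor is the divisor of a fixed
  function (Hilbert 90, in the form "a one-dimensional invariant `L(E)` has a fixed generator");
* `exists_common_residual` (**G-MOV2**, abstract form): if `D₁ ~ D₂` are invariant effective
  divisors with `deg D₁ + 2g ≤ m`, and `T` is a finite set of places, there are an invariant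
  effective `R` avoiding `T` and fixed functions `a₁, a₂` with `div aᵢ + m ∞ = Dᵢ + R`;
* `exists_fixed_family_disjoint` (**G-MOV3**, abstract form): `k` fixed functions in `L(D)`
  (`D` invariant, `deg D ≥ 2g`) whose members `div b + D` have pairwise disjoint supports.
-/

set_option autoImplicit false

noncomputable section

open AlgebraicCurve ModularCurve

namespace Fermat.Agent.S17.H917

open Fermat.Agent.Lib.RR Fermat.Agent.S17.H680 Fermat.Agent.S17.H77 Fermat.Agent.Lib.RR.H439

variable (F₀ : IntermediateField ℚ (LaurentSeries ℚ)) [FF1 Qb (laurentBaseChange Qb F₀)]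

/-! ### Invariant divisors -/

omit [FF1 Qb (laurentBaseChange Qb F₀)] in
theorem isInvariant_zero : IsInvariant F₀ (0 : Divisor Qb (laurentBaseChange Qb F₀)) :=
  fun _ => smul_zero _

variable {F₀} in
omit [FF1 Qb (laurentBaseChange Qb F₀)] in
theorem isInvariant_add {D E : Divisor Qb (laurentBaseChange Qb F₀)} (hD : IsInvariant F₀ D)
    (hE : IsInvariant F₀ E) : IsInvariant F₀ (D + E) := fun σ => by
  rw [smul_add, hD σ, hE σ]

variable {F₀} in
omit [FF1 Qb (laurentBaseChange Qb F₀)] in
theorem isInvariant_neg {D : Divisor Qb (laurentBaseChange Qb F₀)} (hD : IsInvariant F₀ D) :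
    IsInvariant F₀ (-D) := fun σ => by
  rw [smul_neg, hD σ]

variable {F₀} in
omit [FF1 Qb (laurentBaseChange Qb F₀)] in
theorem isInvariant_sub {D E : Divisor Qb (laurentBaseChange Qb F₀)} (hD : IsInvariant F₀ D)
    (hE : IsInvariant F₀ E) : IsInvariant F₀ (D - E) := fun σ => by
  rw [smul_sub, hD σ, hE σ]

variable {F₀} in
/-- The divisor of a fixed function is invariant. -/
theorem isInvariant_divOf {f : laurentBaseChange Qb F₀} (hf : f ≠ 0) (hfix : IsFixed F₀ f) :
    IsInvariant F₀ (divOf (K := Qb) f hf) := fun σ => by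
  rw [smul_divOf]
  exact divOf_congr _ (hfix σ)

/-! ### Rational avoidance -/

omit F₀ in
omit [FF1 Qb (laurentBaseChange Qb F₀)] in
/-- Over an infinite field, a subspace `V₀` which is contained in none of finitely many subspaces
`p i` has an element outside all of them. -/
theorem exists_mem_forall_notMem {k V ι : Type*} [Field k] [Infinite k] [AddCommGroup V]
    [Module k V] (V₀ : Submodule k V) (S : Finset ι) (p : ι → Submodule k V)
    (h : ∀ i ∈ S, ¬ V₀ ≤ p i) : ∃ x ∈ V₀, ∀ i ∈ S, x ∉ p i := by
  classical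
  let q : ι → Subspace k V₀ := fun i => Submodule.comap V₀.subtype (p i)
  let s : Finset (Subspace k V₀) := S.image q
  have hs : (⊤ : Subspace k V₀) ∉ s := by
    intro hmem
    obtain ⟨i, hi, hq⟩ := Finset.mem_image.mp hmem
    apply h i hi
    intro x hx
    have : (⟨x, hx⟩ : V₀) ∈ q i := by rw [hq]; trivial
    exact this
  have hcov := Subspace.biUnion_ne_univ_of_top_notMem hs
  obtain ⟨x, hx⟩ := (Set.ne_univ_iff_exists_notMem _).mp hcov
  simp only [Set.mem_iUnion, not_exists] at hx
  refine ⟨x, x.2, fun i hi hxi => ?_⟩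
  exact hx (q i) (Finset.mem_image_of_mem q hi) hxi

omit [FF1 Qb (laurentBaseChange Qb F₀)] in
/-- A `ℚ̄`-subspace of `F`, as a `ℚ`-subspace. -/
def ratPart (W : Submodule Qb (laurentBaseChange Qb F₀)) :
    Submodule ℚ (laurentBaseChange Qb F₀) where
  carrier := {f | f ∈ W}
  zero_mem' := W.zero_mem
  add_mem' := fun hf hg => W.add_mem hf hg
  smul_mem' := fun c f hf => by
    show c • f ∈ W
    rw [← algebraMap_smul Qb c f]
    exact W.smul_mem _ hf

omit [FF1 Qb (laurentBaseChange Qb F₀)] in
theorem mem_ratPart {W : Submodule Qb (laurentBaseChange Qb F₀)}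
    {f : laurentBaseChange Qb F₀} : f ∈ ratPart F₀ W ↔ f ∈ W := Iff.rfl

variable {F₀} in
/-- **RAT-AVOID.**  If `D` is a Galois-invariant divisor of degree `≥ 2g` and `S` is a finite set
of places, then some Galois-fixed `f ∈ L(D)`, `f ≠ 0`, has order exactly `-D v` at every `v ∈ S`. -/
theorem exists_fixed_mem_L_forall_ord_eq {D : Divisor Qb (laurentBaseChange Qb F₀)}
    (hD : IsInvariant F₀ D)
    (hdeg : 2 * (genusFF Qb (laurentBaseChange Qb F₀) : ℤ) ≤ Divisor.degree D)
    (S : Finset (Place Qb (laurentBaseChange Qb F₀))) :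
    ∃ f ∈ riemannRochSpace D, IsFixed F₀ f ∧ f ≠ 0 ∧ ∀ v ∈ S, v.ord f = -D v := by
  classical
  have hspan : Submodule.span Qb {f | f ∈ riemannRochSpace D ∧ IsFixed F₀ f}
      = riemannRochSpace D :=
    span_fixed_eq F₀ (riemannRochSpace D) fun σ _ hf => smul_mem_L_of_isInvariant F₀ hD σ hf
  -- a `ℚ̄`-subspace containing all fixed elements of `L(D)` contains `L(D)`
  have key : ∀ W : Submodule Qb (laurentBaseChange Qb F₀),
      fixedPart F₀ (riemannRochSpace D) ≤ ratPart F₀ W → riemannRochSpace D ≤ W := by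
    intro W hW
    rw [← hspan, Submodule.span_le]
    intro f hf
    exact hW hf
  -- the subspaces to avoid: `0` and the `L(D - v)`, `v ∈ S`
  have hav := exists_mem_forall_notMem (fixedPart F₀ (riemannRochSpace D))
    (insert none (S.image some))
    (fun o : Option (Place Qb (laurentBaseChange Qb F₀)) =>
      match o with
      | none => ratPart F₀ ⊥
      | some v => ratPart F₀ (riemannRochSpace (D - prim v)))
    (by
      intro o ho hle
      cases o with
      | none =>
        obtain ⟨v⟩ := (inferInstance : FF1 Qb (laurentBaseChange Qb F₀)).nonempty_place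
        obtain ⟨f, hf, hf0, -⟩ := exists_mem_L_ord_eq hdeg v
        exact hf0 (by simpa using key ⊥ hle hf)
      | some v =>
        obtain ⟨f, hf, hf'⟩ := exists_mem_not_mem_sub hdeg v
        exact hf' (key _ hle hf))
  obtain ⟨x, hx, hxav⟩ := hav
  refine ⟨x, hx.1, hx.2, ?_, fun v hv => ?_⟩
  · intro h0
    refine hxav none (Finset.mem_insert_self _ _) ?_
    show x ∈ (⊥ : Submodule Qb (laurentBaseChange Qb F₀))
    rw [h0]
    exact Submodule.zero_mem _
  · apply ord_eq_of_mem_of_not_mem_sub D v hx.1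
    intro hmem
    exact hxav (some v) (Finset.mem_insert_of_mem (Finset.mem_image_of_mem some hv)) hmem

/-! ### Invariant principal divisors -/

variable {F₀} in
/-- If `E` is invariant and `E + div h = 0` for some `h ≠ 0`, then `E + div a = 0` for a
Galois-fixed function `a` (Hilbert 90 for the function field, via BASE-2). -/
theorem exists_fixed_of_divOf_add_eq_zero {E : Divisor Qb (laurentBaseChange Qb F₀)}
    (hE : IsInvariant F₀ E) {h : laurentBaseChange Qb F₀} (hh : h ≠ 0)
    (hEh : E + divOf h hh = 0) :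
    ∃ (a : laurentBaseChange Qb F₀) (ha : a ≠ 0), IsFixed F₀ a ∧ E + divOf a ha = 0 := by
  classical
  have hdegE : Divisor.degree E = 0 := by
    have := congrArg Divisor.degree hEh
    rw [map_add, degree_divOf, add_zero, map_zero] at this
    exact this
  obtain ⟨b, hbL, hbfix, hli, -, -⟩ := exists_fixed_basis_L F₀ hE
  have hpos : 0 < ell E := by
    have hEq : E = 0 + divOf h⁻¹ (inv_ne_zero hh) := by
      rw [divOf_inv h hh, zero_add, eq_neg_iff_add_eq_zero]
      exact hEh
    rw [hEq, ell_add_divOf, ell_zero]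
    exact Nat.one_pos
  set a := b ⟨0, hpos⟩ with ha
  have ha0 : a ≠ 0 := hli.ne_zero _
  refine ⟨a, ha0, hbfix _, ?_⟩
  apply eq_zero_of_nonneg_of_degree_eq_zero
  · exact (mem_L_iff_nonneg ha0).mp (hbL _)
  · rw [map_add, degree_divOf, hdegE, add_zero]

/-! ### The common residual -/

variable {F₀} in
/-- **G-MOV2** (abstract form).  Let `D₁ ~ D₂` be linearly equivalent Galois-invariant effective
divisors with `deg D₁ + 2g ≤ m`, `m ∞` invariant, and let `T` be a finite set of places.  Then there
are a Galois-invariant effective divisor `R` avoiding `T` and Galois-fixed functions `a₁, a₂` with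
`div aᵢ + m ∞ = Dᵢ + R`. -/
theorem exists_common_residual {m : ℕ} {vinf : Place Qb (laurentBaseChange Qb F₀)}
    (hminv : IsInvariant F₀ (m • prim vinf))
    {D₁ D₂ : Divisor Qb (laurentBaseChange Qb F₀)}
    (hi₁ : IsInvariant F₀ D₁) (hi₂ : IsInvariant F₀ D₂)
    (hdeg : Divisor.degree D₁ + 2 * (genusFF Qb (laurentBaseChange Qb F₀) : ℤ) ≤ m)
    (hlin : ∃ (h : laurentBaseChange Qb F₀) (hh : h ≠ 0), D₂ = D₁ + divOf h hh)
    (T : Finset (Place Qb (laurentBaseChange Qb F₀))) :
    ∃ (R : Divisor Qb (laurentBaseChange Qb F₀)) (a₁ a₂ : laurentBaseChange Qb F₀)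
      (ha₁ : a₁ ≠ 0) (ha₂ : a₂ ≠ 0),
      0 ≤ R ∧ IsInvariant F₀ R ∧ IsFixed F₀ a₁ ∧ IsFixed F₀ a₂ ∧
      divOf a₁ ha₁ + m • prim vinf = D₁ + R ∧ divOf a₂ ha₂ + m • prim vinf = D₂ + R ∧
      ∀ v ∈ T, R v = 0 := by
  classical
  obtain ⟨h, hh, hD₂⟩ := hlin
  -- a rational member of `|m ∞ - D₁|` avoiding `T`
  have hE : IsInvariant F₀ (m • prim vinf - D₁) := isInvariant_sub hminv hi₁
  have hEdeg : 2 * (genusFF Qb (laurentBaseChange Qb F₀) : ℤ)
      ≤ Divisor.degree (m • prim vinf - D₁) := by
    rw [map_sub, map_nsmul, degree_prim vinf (deg_eq_one vinf)]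
    simp only [nsmul_eq_mul, mul_one]
    linarith
  obtain ⟨a₁, ha₁L, ha₁fix, ha₁0, ha₁T⟩ := exists_fixed_mem_L_forall_ord_eq hE hEdeg T
  set R : Divisor Qb (laurentBaseChange Qb F₀) := (m • prim vinf - D₁) + divOf a₁ ha₁0 with hR
  have hR0 : 0 ≤ R := (mem_L_iff_nonneg ha₁0).mp ha₁L
  have hRinv : IsInvariant F₀ R := isInvariant_add hE (isInvariant_divOf ha₁0 ha₁fix)
  have hRT : ∀ v ∈ T, R v = 0 := by
    intro v hv
    rw [hR, Finsupp.add_apply, divOf_apply, ha₁T v hv]
    ring
  have e₁ : divOf a₁ ha₁0 + m • prim vinf = D₁ + R := by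
    rw [hR]; abel
  -- the second function
  have hE₂ : IsInvariant F₀ (m • prim vinf - D₂ - R) :=
    isInvariant_sub (isInvariant_sub hminv hi₂) hRinv
  have hprinc : (m • prim vinf - D₂ - R) + divOf (a₁ * h) (mul_ne_zero ha₁0 hh) = 0 := by
    rw [divOf_mul a₁ h ha₁0 hh, hD₂, hR]
    abel
  obtain ⟨a₂, ha₂0, ha₂fix, e⟩ := exists_fixed_of_divOf_add_eq_zero hE₂ _ hprinc
  refine ⟨R, a₁, a₂, ha₁0, ha₂0, hR0, hRinv, ha₁fix, ha₂fix, e₁, ?_, hRT⟩
  have : divOf a₂ ha₂0 = -(m • prim vinf - D₂ - R) := by
    rw [eq_neg_iff_add_eq_zero, add_comm]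
    exact e
  rw [this]
  abel

/-! ### Rational hyperplane sections with pairwise disjoint supports -/

variable {F₀} in
/-- **G-MOV3** (abstract form).  If `D` is invariant of degree `≥ 2g`, there are, for every `k`,
Galois-fixed nonzero functions `b 0, …, b (k-1) ∈ L(D)` such that the members `div (b j) + D` of
`|D|` have pairwise disjoint supports: at every place `v` and for `j ≠ j'`, one of `b j`, `b j'` has
order exactly `-D v`. -/
theorem exists_fixed_family_disjoint {D : Divisor Qb (laurentBaseChange Qb F₀)}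
    (hD : IsInvariant F₀ D)
    (hdeg : 2 * (genusFF Qb (laurentBaseChange Qb F₀) : ℤ) ≤ Divisor.degree D) (k : ℕ) :
    ∃ b : Fin k → laurentBaseChange Qb F₀,
      (∀ j, b j ≠ 0 ∧ b j ∈ riemannRochSpace D ∧ IsFixed F₀ (b j)) ∧
      ∀ j j', j ≠ j' → ∀ v : Place Qb (laurentBaseChange Qb F₀),
        v.ord (b j) = -D v ∨ v.ord (b j') = -D v := by
  classical
  induction k with
  | zero => exact ⟨Fin.elim0, fun j => j.elim0, fun j => j.elim0⟩
  | succ k ih =>
    obtain ⟨b, hb, hdis⟩ := ih
    -- the finite set of zeros of the previous members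
    let S : Finset (Place Qb (laurentBaseChange Qb F₀)) :=
      Finset.univ.biUnion fun j : Fin k => (divOf (b j) (hb j).1 + D).support
    obtain ⟨f, hfL, hffix, hf0, hfS⟩ := exists_fixed_mem_L_forall_ord_eq hD hdeg S
    have hkey : ∀ (j : Fin k) (v : Place Qb (laurentBaseChange Qb F₀)),
        v.ord (b j) = -D v ∨ v.ord f = -D v := by
      intro j v
      by_cases hv : v ∈ (divOf (b j) (hb j).1 + D).support
      · right
        exact hfS v (Finset.mem_biUnion.mpr ⟨j, Finset.mem_univ _, hv⟩)
      · left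
        rw [Finsupp.mem_support_iff, not_not, Finsupp.add_apply, divOf_apply] at hv
        omega
    refine ⟨Fin.snoc b f, fun j => ?_, fun j j' hjj' v => ?_⟩
    · refine Fin.lastCases ?_ (fun i => ?_) j
      · simpa using ⟨hf0, hfL, hffix⟩
      · simpa using hb i
    · induction j using Fin.lastCases with
      | last =>
        induction j' using Fin.lastCases with
        | last => exact absurd rfl hjj'
        | cast i' =>
          rw [Fin.snoc_last, Fin.snoc_castSucc]
          exact (hkey i' v).symm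
      | cast i =>
        induction j' using Fin.lastCases with
        | last =>
          rw [Fin.snoc_last, Fin.snoc_castSucc]
          exact hkey i v
        | cast i' =>
          rw [Fin.snoc_castSucc, Fin.snoc_castSucc]
          exact hdis i i' (fun h => hjj' (by rw [h])) v

end Fermat.Agent.S17.H917
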