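import Fermat.Agent.S17.H500.TopData
import Fermat.Agent.Lib.RR.Adeles

/-!
# S17 / tower H, TOP-GLUE leaves T-MOV2 and T-MOV1W (helper917)

Exact leaf statements of `S17/H500/TopData.lean` (architect helper500):

* `mov2Leaf I : Top.Mov2Leaf I` — field `mov2` of the pairing package: two invariant effective
  divisors of the same degree `≤ m - 2g` and the same class are cut out by rational hyperplanes
  with a common residual divisor avoiding a given divisor
  (`H980.exists_common_residual` + `H680.mk_eq_mk_iff'` + `genusFF_eq_genusR`);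
* `mov1Leaf I (h : Top.Mov1Statement I) : Top.Mov1Leaf I` — field `mov1` from the geometric
  statement (G-MOV1), applied to the finite set `supp T ∪ supp Rt ∪ {∞}`.
-/

set_option autoImplicit false

noncomputable section

open AlgebraicCurve

namespace Fermat.Agent.S17.H917

open Fermat.Agent.Lib.RR Fermat.Agent.S17.HWall Fermat.Agent.S17.HContract
open Fermat.Agent.S17.H77 Fermat.Agent.S17.H680 Fermat.Agent.S17.H980 ModularCurve
open Fermat.Agent.S17.H500.Top

variable {F₀ : IntermediateField ℚ (LaurentSeries ℚ)} [FF1 Qb (laurentBaseChange Qb F₀)]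

/-- **T-MOV2**: field `mov2` of the pairing package of TOP-GLUE. -/
theorem mov2Leaf (I : TopInput F₀) : Mov2Leaf I := by
  classical
  intro D₁ D₂ hdeg hm hcls T
  -- linear equivalence of `D₁` and `D₂`
  have h1 : Pic0.mk (I.zeroPart D₁) = Pic0.mk (I.zeroPart D₂) := by
    have := congrArg Subtype.val hcls
    simpa only [I.coe_clsHom] using this
  obtain ⟨h, hh, he⟩ := mk_eq_mk_iff'.mp h1
  rw [I.coe_zeroPart, I.coe_zeroPart, hdeg] at he
  have he' : (D₂ : Divisor Qb (laurentBaseChange Qb F₀))
      = (D₁ : Divisor Qb (laurentBaseChange Qb F₀)) + divOf h hh := by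
    have := congrArg (fun X => X + degHom D₂ • prim I.E.vinf) he
    simp only [sub_add_cancel] at this
    rw [this]
    abel
  have hdiv : divOf h⁻¹ (inv_ne_zero hh)
      = (D₁ : Divisor Qb (laurentBaseChange Qb F₀)) - (D₂ : Divisor Qb (laurentBaseChange Qb F₀)) := by
    rw [divOf_inv h hh, he']
    abel
  have hdegZ : Divisor.degree (D₁ : Divisor Qb (laurentBaseChange Qb F₀))
      + 2 * (genusFF Qb (laurentBaseChange Qb F₀) : ℤ) ≤ I.E.m := by
    rw [genusFF_eq_genusR, ← coe_degHom]
    exact_mod_cast hm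
  obtain ⟨a₁, a₂, R, ha₁, ha₂, hR0, hRinv, hZ₁, hZ₂, hRT⟩ :=
    exists_common_residual F₀ I.E I.xfix I.inf_inv
      (D₁ : Divisor Qb (laurentBaseChange Qb F₀)) (D₂ : Divisor Qb (laurentBaseChange Qb F₀))
      D₁.nonneg D₂.nonneg D₁.inv D₂.inv hdegZ h⁻¹ (inv_ne_zero hh) hdiv
      (T : Divisor Qb (laurentBaseChange Qb F₀)).support
  refine ⟨⟨R, hR0, hRinv⟩, ⟨a₁, ha₁⟩, ⟨a₂, ha₂⟩, ?_, ?_, ?_⟩
  · apply Subtype.ext
    rw [I.coe_ZL, AddSubmonoid.coe_add]
    exact hZ₁
  · apply Subtype.ext
    rw [I.coe_ZL, AddSubmonoid.coe_add]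
    exact hZ₂
  · intro P
    by_cases hP : (T : Divisor Qb (laurentBaseChange Qb F₀)) P = 0
    · exact Or.inr hP
    · exact Or.inl (hRT P (Finsupp.mem_support_iff.mpr hP))

/-- **T-MOV1W**: field `mov1` of the pairing package from the geometric statement (G-MOV1). -/
theorem mov1Leaf (I : TopInput F₀) (h : Mov1Statement I) : Mov1Leaf I := by
  classical
  intro x T
  obtain ⟨D, hdeg, hcls, hred, havoid⟩ :=
    h x ((T : Divisor Qb (laurentBaseChange Qb F₀)).support ∪ I.Rt.support ∪ {I.E.vinf})
  refine ⟨D, hdeg, hcls, ?_, hred, ?_, ?_⟩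
  · intro P
    by_cases hP : (T : Divisor Qb (laurentBaseChange Qb F₀)) P = 0
    · exact Or.inr hP
    · refine Or.inl (havoid P ?_)
      exact Finset.mem_union_left _ (Finset.mem_union_left _ (Finsupp.mem_support_iff.mpr hP))
  · exact havoid _ (Finset.mem_union_right _ (Finset.mem_singleton_self _))
  · intro P
    by_cases hP : I.Rt P = 0
    · exact Or.inr hP
    · refine Or.inl (havoid P ?_)
      exact Finset.mem_union_left _ (Finset.mem_union_right _ (Finsupp.mem_support_iff.mpr hP))

end Fermat.Agent.S17.H917
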